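import Fermat.Agent.MultiplicativeKhintchine.Overlap
import Fermat.Agent.Khintchine.Main

/-!
# The blocks of denominators

`blockSum j a` is the sum over `8 ^ j < q ≤ 8 ^ (j + 1)` and `1 ≤ k ≤ 3 (j + 1)` of
`2 ^ k φ q / q` for the `q` whose multiple of `a` is within `2 ^ (-k)` of zero. It is at most twice
the sum of `φ q / (q ‖q a‖)`, its mean is of order `j 8 ^ j` and its second moment at most a
constant times the square of the mean.
-/

set_option autoImplicit false

noncomputable section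

open Finset MeasureTheory Metric

namespace FA.MultiplicativeKhintchine

/-- The indices of a block. -/
def blockIdx (j : ℕ) : Finset (ℕ × ℕ) := Ioc (8 ^ j) (8 ^ (j + 1)) ×ˢ Icc 1 (3 * (j + 1))

/-- The weight of an index. -/
def wgt (i : ℕ × ℕ) : ℝ := (i.1.totient : ℝ) / i.1 * 2 ^ i.2

/-- The set of an index. -/
def lev (i : ℕ × ℕ) : Set UnitAddCircle := dilate i.1 ((2 : ℝ) ^ i.2)⁻¹

/-- The sum over a block. -/
def blockSum (j : ℕ) (a : UnitAddCircle) : ℝ :=
  ∑ i ∈ blockIdx j, wgt i * (lev i).indicator (fun _ => (1 : ℝ)) a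

/-- The sum of `φ q / q` over a block. -/
def blockTotient (j : ℕ) : ℝ := ∑ q ∈ Ioc ((8 : ℕ) ^ j) (8 ^ (j + 1)), (q.totient : ℝ) / q

/-- The mean of a block. -/
def blockMean (j : ℕ) : ℝ := 2 * (3 * ((j : ℝ) + 1)) * blockTotient j

theorem totient_div_nonneg (q : ℕ) : 0 ≤ (q.totient : ℝ) / q := by positivity

theorem totient_div_le_one (q : ℕ) : (q.totient : ℝ) / q ≤ 1 := by
  rcases Nat.eq_zero_or_pos q with rfl | hq
  · simp
  rw [div_le_one (Nat.cast_pos.2 hq)]
  exact Nat.cast_le.2 q.totient_le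

theorem wgt_nonneg (i : ℕ × ℕ) : 0 ≤ wgt i := by
  rw [wgt]
  positivity

theorem measurableSet_lev (i : ℕ × ℕ) : MeasurableSet (lev i) := measurableSet_dilate _ _

theorem integrable_indicator {s : Set UnitAddCircle} (hs : MeasurableSet s) :
    Integrable (s.indicator fun _ => (1 : ℝ)) (volume : Measure UnitAddCircle) :=
  (integrable_const 1).indicator hs

theorem integral_indicator_one {s : Set UnitAddCircle} (hs : MeasurableSet s) :
    ∫ a, s.indicator (fun _ => (1 : ℝ)) a ∂(volume : Measure UnitAddCircle) =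
      (volume : Measure UnitAddCircle).real s := by
  rw [integral_indicator_const _ hs, smul_eq_mul, mul_one]

theorem blockSum_nonneg (j : ℕ) (a : UnitAddCircle) : 0 ≤ blockSum j a :=
  sum_nonneg fun i _ => mul_nonneg (wgt_nonneg i) (Set.indicator_nonneg (fun _ _ => zero_le_one) _)

theorem integrable_blockSum (j : ℕ) :
    Integrable (blockSum j) (volume : Measure UnitAddCircle) :=
  integrable_finsetSum _ fun i _ => (integrable_indicator (measurableSet_lev i)).const_mul _

theorem measurable_blockSum (j : ℕ) : Measurable (blockSum j) :=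
  Finset.measurable_sum _ fun i _ =>
    ((measurable_const.indicator (measurableSet_lev i)).const_mul _)

theorem blockSum_mul (i j : ℕ) (a : UnitAddCircle) :
    blockSum i a * blockSum j a = ∑ s ∈ blockIdx i, ∑ t ∈ blockIdx j,
      wgt s * wgt t * (lev s ∩ lev t).indicator (fun _ => (1 : ℝ)) a := by
  rw [blockSum, blockSum, sum_mul_sum]
  refine sum_congr rfl fun s _ => sum_congr rfl fun t _ => ?_
  by_cases h1 : a ∈ lev s <;> by_cases h2 : a ∈ lev t <;> simp [h1, h2]

theorem integrable_blockSum_mul (i j : ℕ) :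
    Integrable (fun a => blockSum i a * blockSum j a) (volume : Measure UnitAddCircle) := by
  simp only [blockSum_mul]
  exact integrable_finsetSum _ fun s _ => integrable_finsetSum _ fun t _ =>
    (integrable_indicator ((measurableSet_lev s).inter (measurableSet_lev t))).const_mul _

theorem half_pow_le {k : ℕ} (hk : 1 ≤ k) : ((2 : ℝ) ^ k)⁻¹ ≤ 1 / 2 := by
  rw [one_div]
  exact inv_anti₀ two_pos (le_self_pow₀ one_le_two (by omega))

theorem integral_blockSum (j : ℕ) :
    ∫ a, blockSum j a ∂(volume : Measure UnitAddCircle) = blockMean j := by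
  simp only [blockSum]
  rw [integral_finsetSum _ fun i _ => (integrable_indicator (measurableSet_lev i)).const_mul _]
  rw [sum_congr rfl (g := fun i => 2 * ((i.1.totient : ℝ) / i.1)) fun i hi => ?_]
  · rw [blockIdx, sum_product, blockMean, blockTotient, mul_sum]
    refine sum_congr rfl fun q _ => ?_
    simp only [sum_const, Nat.card_Icc, Nat.add_sub_cancel, nsmul_eq_mul]
    push_cast
    ring
  · rw [blockIdx, mem_product, mem_Ioc, mem_Icc] at hi
    rw [integral_const_mul, integral_indicator_one (measurableSet_lev i), lev,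
      measureReal_dilate (by omega) (by positivity) (half_pow_le hi.2.1), wgt]
    have : (2 : ℝ) ^ i.2 ≠ 0 := by positivity
    field_simp

theorem le_blockTotient (j : ℕ) : (8 : ℝ) ^ j ≤ blockTotient j := by
  have h := Khintchine.quarter_le_sum_totient_div (8 ^ (j + 1))
  rw [show Icc 1 (8 ^ (j + 1)) = Ioc 0 (8 ^ (j + 1)) from rfl,
    ← sum_Ioc_consecutive _ (Nat.zero_le (8 ^ j)) (Nat.pow_le_pow_right (by norm_num)
      (Nat.le_add_right j 1)),
    ← blockTotient] at h
  have h2 : ∑ q ∈ Ioc 0 ((8 : ℕ) ^ j), (q.totient : ℝ) / q ≤ (8 : ℝ) ^ j :=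
    (sum_le_sum fun q _ => totient_div_le_one q).trans (le_of_eq (by simp))
  push_cast at h
  rw [pow_succ] at h
  linarith

theorem le_blockMean (j : ℕ) : 6 * ((j : ℝ) + 1) * (8 : ℝ) ^ j ≤ blockMean j := by
  rw [blockMean, show 2 * (3 * ((j : ℝ) + 1)) = 6 * ((j : ℝ) + 1) by ring]
  exact mul_le_mul_of_nonneg_left (le_blockTotient j) (by positivity)

theorem blockMean_pos (j : ℕ) : 0 < blockMean j :=
  lt_of_lt_of_le (by positivity) (le_blockMean j)

theorem sum_two_pow_le (K : ℕ) : ∑ k ∈ Icc 1 K, (2 : ℝ) ^ k ≤ 2 * 2 ^ K := by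
  induction K with
  | zero => simp
  | succ K ih =>
    rw [sum_Icc_succ_top (by omega), pow_succ]
    linarith [show (0 : ℝ) ≤ 2 ^ K by positivity]

theorem two_pow_mul_min_le (k l : ℕ) :
    (2 : ℝ) ^ k * 2 ^ l * min ((2 : ℝ) ^ k)⁻¹ ((2 : ℝ) ^ l)⁻¹ ≤ 2 ^ k + 2 ^ l := by
  have hk : (0 : ℝ) < 2 ^ k := by positivity
  have hl : (0 : ℝ) < 2 ^ l := by positivity
  calc (2 : ℝ) ^ k * 2 ^ l * min ((2 : ℝ) ^ k)⁻¹ ((2 : ℝ) ^ l)⁻¹
      ≤ (2 : ℝ) ^ k * 2 ^ l * ((2 : ℝ) ^ k)⁻¹ :=
        mul_le_mul_of_nonneg_left (min_le_left _ _) (by positivity)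
    _ = 2 ^ l := by field_simp
    _ ≤ _ := le_add_of_nonneg_left hk.le

/-- **The second moment of a block.** -/
theorem integral_blockSum_sq_le (j : ℕ) :
    ∫ a, blockSum j a * blockSum j a ∂(volume : Measure UnitAddCircle) ≤
      2146 * blockMean j ^ 2 := by
  simp only [blockSum_mul]
  rw [integral_finsetSum _ fun s _ => integrable_finsetSum _ fun t _ =>
    (integrable_indicator ((measurableSet_lev s).inter (measurableSet_lev t))).const_mul _]
  rw [sum_congr rfl fun s _ => integral_finsetSum _ fun t _ =>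
    (integrable_indicator ((measurableSet_lev s).inter (measurableSet_lev t))).const_mul _]
  simp only [integral_const_mul,
    integral_indicator_one ((measurableSet_lev _).inter (measurableSet_lev _))]
  set K : ℕ := 3 * (j + 1) with hK
  set Q : ℝ := (8 : ℝ) ^ j with hQ
  have hQ0 : 0 < Q := by positivity
  have h2K : (2 : ℝ) ^ K = 8 * Q := by
    rw [hK, pow_mul, hQ, pow_succ]
    norm_num
    ring
  set B := Ioc (8 ^ j) (8 ^ (j + 1)) with hB
  have hpair : ∀ q ∈ B, ∀ r ∈ B, ∑ k ∈ Icc 1 K, ∑ l ∈ Icc 1 K,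
      wgt (q, k) * wgt (r, l) *
        (volume : Measure UnitAddCircle).real (lev (q, k) ∩ lev (r, l)) ≤
      8 * (K : ℝ) ^ 2 + 64 * K * (Nat.gcd q r : ℝ) := fun q hq r hr => by
    rw [hB, mem_Ioc] at hq hr
    have hqQ : Q ≤ q := by rw [hQ]; exact_mod_cast hq.1.le
    have hrQ : Q ≤ r := by rw [hQ]; exact_mod_cast hr.1.le
    calc ∑ k ∈ Icc 1 K, ∑ l ∈ Icc 1 K, wgt (q, k) * wgt (r, l) *
          (volume : Measure UnitAddCircle).real (lev (q, k) ∩ lev (r, l))
        ≤ ∑ k ∈ Icc 1 K, ∑ l ∈ Icc 1 K,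
            (8 + 2 * (Nat.gcd q r : ℝ) / Q * ((2 : ℝ) ^ k + 2 ^ l)) := by
          refine sum_le_sum fun k _ => sum_le_sum fun l _ => ?_
          refine (mul_le_mul (b := (2 : ℝ) ^ k * 2 ^ l) (d := 8 * (((2 : ℝ) ^ k)⁻¹ *
            ((2 : ℝ) ^ l)⁻¹) + 2 * ((Nat.gcd q r : ℝ) *
              (min ((2 : ℝ) ^ k)⁻¹ ((2 : ℝ) ^ l)⁻¹ / Q))) ?_ ?_ measureReal_nonneg
            (by positivity)).trans ?_
          · simp only [wgt]
            refine mul_le_mul ?_ ?_ (by positivity) (by positivity) <;>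
              exact mul_le_of_le_one_left (by positivity) (totient_div_le_one _)
          · exact measureReal_dilate_inter_le (by omega) (by omega) hQ0 hqQ hrQ (by positivity)
              (by positivity)
          · have hk : (2 : ℝ) ^ k ≠ 0 := by positivity
            have hl : (2 : ℝ) ^ l ≠ 0 := by positivity
            calc (2 : ℝ) ^ k * 2 ^ l * (8 * (((2 : ℝ) ^ k)⁻¹ * ((2 : ℝ) ^ l)⁻¹) +
                  2 * ((Nat.gcd q r : ℝ) * (min ((2 : ℝ) ^ k)⁻¹ ((2 : ℝ) ^ l)⁻¹ / Q)))
                = 8 + 2 * (Nat.gcd q r : ℝ) / Q * ((2 : ℝ) ^ k * 2 ^ l *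
                    min ((2 : ℝ) ^ k)⁻¹ ((2 : ℝ) ^ l)⁻¹) := by field_simp
              _ ≤ _ := add_le_add_right (mul_le_mul_of_nonneg_left (two_pow_mul_min_le k l)
                  (by positivity)) _
      _ = 8 * (K : ℝ) ^ 2 +
            2 * (Nat.gcd q r : ℝ) / Q * (2 * K * ∑ k ∈ Icc 1 K, (2 : ℝ) ^ k) := by
          simp only [sum_add_distrib, ← mul_sum, sum_const, Nat.card_Icc, Nat.add_sub_cancel,
            nsmul_eq_mul]
          ring
      _ ≤ 8 * (K : ℝ) ^ 2 + 2 * (Nat.gcd q r : ℝ) / Q * (2 * K * (2 * 2 ^ K)) := by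
          refine add_le_add_right (mul_le_mul_of_nonneg_left
            (mul_le_mul_of_nonneg_left (sum_two_pow_le K) (by positivity)) (by positivity)) _
      _ = _ := by
          rw [h2K]
          field_simp
          ring
  have hexp : ∑ s ∈ blockIdx j, ∑ t ∈ blockIdx j, wgt s * wgt t *
      (volume : Measure UnitAddCircle).real (lev s ∩ lev t) =
      ∑ q ∈ B, ∑ r ∈ B, ∑ k ∈ Icc 1 K, ∑ l ∈ Icc 1 K, wgt (q, k) * wgt (r, l) *
        (volume : Measure UnitAddCircle).real (lev (q, k) ∩ lev (r, l)) := by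
    rw [blockIdx, ← hB, ← hK, sum_product]
    refine sum_congr rfl fun q _ => ?_
    rw [sum_congr rfl fun k _ => sum_product _ _ _, sum_comm]
  rw [hexp]
  refine (sum_le_sum fun q hq => sum_le_sum fun r hr => hpair q hq r hr).trans ?_
  simp only [sum_add_distrib, ← mul_sum, sum_const, hB, Nat.card_Ioc, nsmul_eq_mul]
  have hN : ((8 ^ (j + 1) - 8 ^ j : ℕ) : ℝ) = 7 * Q := by
    rw [Nat.cast_sub (Nat.pow_le_pow_right (by norm_num) (Nat.le_add_right j 1)), hQ]
    push_cast
    ring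
  rw [hN]
  have hg : ∑ q ∈ B, ∑ r ∈ B, (Nat.gcd q r : ℝ) ≤ (8 * Q) ^ 2 * (2 * K) := by
    have hsub : B ⊆ Icc 1 (8 ^ (j + 1)) := fun q hq => by
      rw [hB, mem_Ioc] at hq
      rw [mem_Icc]
      omega
    refine ((sum_le_sum fun q _ => sum_le_sum_of_subset_of_nonneg hsub
      fun r _ _ => by positivity).trans (sum_le_sum_of_subset_of_nonneg hsub
        fun q _ _ => sum_nonneg fun r _ => by positivity)).trans ((sum_gcd_le _).trans ?_)
    push_cast
    rw [show (8 : ℝ) ^ (j + 1) = 2 ^ K by rw [h2K, pow_succ', hQ], ← h2K]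
    refine mul_le_mul_of_nonneg_left ?_ (sq_nonneg _)
    rw [Real.log_pow]
    have : (K : ℝ) * Real.log 2 ≤ K := mul_le_of_le_one_right (Nat.cast_nonneg K)
      ((Real.log_le_sub_one_of_pos two_pos).trans (by norm_num))
    have : (1 : ℝ) ≤ K := by exact_mod_cast (show 1 ≤ K by omega)
    linarith
  have hm : 2 * (K : ℝ) * Q ≤ blockMean j := by
    refine le_of_eq_of_le ?_ (le_blockMean j)
    rw [hK, hQ]
    push_cast
    ring
  have hsq := pow_le_pow_left₀ (by positivity) hm 2
  rw [← hB]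
  nlinarith [mul_le_mul_of_nonneg_left hg (show (0 : ℝ) ≤ 64 * K by positivity)]

theorem sum_levels_le {t : ℝ} (ht : 0 < t) (K : ℕ) :
    ∑ k ∈ Icc 1 K, (if t < ((2 : ℝ) ^ k)⁻¹ then (2 : ℝ) ^ k else 0) ≤ 2 / t := by
  induction K with
  | zero => simpa using (div_pos two_pos ht).le
  | succ K ih =>
    by_cases h : t < ((2 : ℝ) ^ (K + 1))⁻¹
    · refine (sum_le_sum (g := fun k => (2 : ℝ) ^ k) fun k _ => ?_).trans
        ((sum_two_pow_le _).trans ?_)
      · split_ifs
        · exact le_rfl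
        · positivity
      · rw [le_div_iff₀ ht, mul_assoc]
        refine (mul_le_mul_of_nonneg_left (mul_le_mul_of_nonneg_left h.le (by positivity))
          zero_le_two).trans (le_of_eq ?_)
        field_simp
    · rw [sum_Icc_succ_top (by omega), if_neg h, add_zero]
      exact ih

/-- **A block is at most twice the sum of `φ q / (q ‖q a‖)`.** -/
theorem blockSum_le {a : UnitAddCircle} (ha : ∀ q : ℕ, 0 < q → q • a ≠ 0) (j : ℕ) :
    blockSum j a ≤
      2 * ∑ q ∈ Ioc ((8 : ℕ) ^ j) (8 ^ (j + 1)), (q.totient : ℝ) / q / ‖q • a‖ := by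
  rw [blockSum, blockIdx, sum_product, mul_sum]
  refine sum_le_sum fun q hq => ?_
  rw [mem_Ioc] at hq
  have hpos : 0 < ‖q • a‖ := norm_pos_iff.2 (ha q (by omega))
  calc ∑ k ∈ Icc 1 (3 * (j + 1)), wgt (q, k) * (lev (q, k)).indicator (fun _ => (1 : ℝ)) a
      = (q.totient : ℝ) / q * ∑ k ∈ Icc 1 (3 * (j + 1)),
          (if ‖q • a‖ < ((2 : ℝ) ^ k)⁻¹ then (2 : ℝ) ^ k else 0) := by
        rw [mul_sum]
        refine sum_congr rfl fun k _ => ?_
        by_cases h : a ∈ lev (q, k)
        · rw [Set.indicator_of_mem h, if_pos (mem_dilate.1 h), mul_one]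
          rfl
        · rw [Set.indicator_of_notMem h, if_neg (fun h' => h (mem_dilate.2 h')), mul_zero,
            mul_zero]
    _ ≤ (q.totient : ℝ) / q * (2 / ‖q • a‖) :=
        mul_le_mul_of_nonneg_left (sum_levels_le hpos _) (totient_div_nonneg q)
    _ = _ := by ring

end FA.MultiplicativeKhintchine
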