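import Fermat.Agent.MultiplicativeKhintchine.Series
import Fermat.Agent.DuffinSchaeffer.Main

/-!
# Gallagher's theorem on multiplicative approximation in the plane

Divergence: for almost every `x` the theorem of Koukoulopoulos and Maynard applies in `y` to
`q ↦ ψ q / ‖q x‖`. Convergence: the hyperbolic region `‖u‖ ‖v‖ < t` has measure `O (t log (1 / t))`.
-/

set_option autoImplicit false

noncomputable section

open Finset MeasureTheory Metric Filter
open scoped Topology ENNReal

namespace FA.MultiplicativeKhintchine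

/-- The hyperbolic neighbourhood of the axes. -/
def hyperbolic (t : ℝ) : Set (UnitAddCircle × UnitAddCircle) := {w | ‖w.1‖ * ‖w.2‖ < t}

theorem measurableSet_hyperbolic (t : ℝ) : MeasurableSet (hyperbolic t) :=
  (isOpen_lt (continuous_fst.norm.mul continuous_snd.norm) continuous_const).measurableSet

theorem measureReal_ball_le (x : UnitAddCircle) {ε : ℝ} (hε : 0 ≤ ε) :
    (volume : Measure UnitAddCircle).real (ball x ε) ≤ 2 * ε := by
  rw [Khintchine.measureReal_ball]
  exact max_le (by positivity) (min_le_right _ _)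

theorem measureReal_hyperbolic_le {t : ℝ} (ht : 0 ≤ t) (K : ℕ) :
    (volume : Measure (UnitAddCircle × UnitAddCircle)).real (hyperbolic t) ≤
      2 * ((2 : ℝ) ^ K)⁻¹ + 8 * K * t := by
  set B : ℕ → Set (UnitAddCircle × UnitAddCircle) := fun k =>
    ball 0 ((2 : ℝ) ^ k)⁻¹ ×ˢ ball 0 (t * 2 ^ (k + 1)) with hB
  have hsub : hyperbolic t ⊆
      ball 0 ((2 : ℝ) ^ K)⁻¹ ×ˢ Set.univ ∪ ⋃ k ∈ range K, B k := by
    rintro ⟨u, v⟩ h
    have key : ∀ K : ℕ, ‖u‖ < ((2 : ℝ) ^ K)⁻¹ ∨
        ∃ k < K, ‖u‖ < ((2 : ℝ) ^ k)⁻¹ ∧ ((2 : ℝ) ^ (k + 1))⁻¹ ≤ ‖u‖ := fun K => by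
      induction K with
      | zero =>
        refine Or.inl ?_
        have := AddCircle.norm_le_half_period (1 : ℝ) one_ne_zero (x := u)
        norm_num at this ⊢
        linarith
      | succ K ih =>
        rcases ih with h | ⟨k, hk, h1, h2⟩
        · rcases lt_or_ge ‖u‖ ((2 : ℝ) ^ (K + 1))⁻¹ with h' | h'
          · exact Or.inl h'
          · exact Or.inr ⟨K, K.lt_succ_self, h, h'⟩
        · exact Or.inr ⟨k, hk.trans K.lt_succ_self, h1, h2⟩
    rcases key K with h1 | ⟨k, hk, h1, h2⟩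
    · exact Or.inl ⟨mem_ball_zero_iff.2 h1, trivial⟩
    · refine Or.inr (Set.mem_biUnion (mem_range.2 hk) ⟨mem_ball_zero_iff.2 h1,
        mem_ball_zero_iff.2 ?_⟩)
      have hp : (0 : ℝ) < 2 ^ (k + 1) := by positivity
      have h3 : ((2 : ℝ) ^ (k + 1))⁻¹ * ‖v‖ < t :=
        lt_of_le_of_lt (mul_le_mul_of_nonneg_right h2 (norm_nonneg v)) h
      rw [inv_mul_eq_div, div_lt_iff₀ hp] at h3
      exact h3
  refine (measureReal_mono hsub (measure_ne_top _ _)).trans ((measureReal_union_le _ _).trans ?_)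
  refine add_le_add ?_ ((measureReal_biUnion_finset_le _ _).trans ?_)
  · rw [Measure.volume_eq_prod, measureReal_prod_prod,
      show (volume : Measure UnitAddCircle).real Set.univ = 1 by
        simp [Measure.real, AddCircle.measure_univ], mul_one]
    exact measureReal_ball_le 0 (by positivity)
  · refine (sum_le_sum (g := fun _ => 8 * t) fun k _ => ?_).trans (le_of_eq (by simp; ring))
    simp only [hB]
    rw [Measure.volume_eq_prod, measureReal_prod_prod]
    refine (mul_le_mul (measureReal_ball_le 0 (by positivity))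
      (measureReal_ball_le 0 (by positivity)) measureReal_nonneg (by positivity)).trans
        (le_of_eq ?_)
    rw [pow_succ]
    field_simp
    ring

/-- The nearest integers give the norms. -/
theorem exists_mul_lt_iff (q : ℕ) (x y c : ℝ) :
    (∃ p r : ℤ, |(q : ℝ) * x - p| * |(q : ℝ) * y - r| < c) ↔
      ‖q • (x : UnitAddCircle)‖ * ‖q • (y : UnitAddCircle)‖ < c := by
  have e : ∀ z : ℝ, ‖q • (z : UnitAddCircle)‖ = |(q : ℝ) * z - round ((q : ℝ) * z)| := fun z => by
    rw [← AddCircle.coe_nsmul, nsmul_eq_mul, AddCircle.norm_eq]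
    simp
  rw [e, e]
  refine ⟨fun ⟨p, r, h⟩ => lt_of_le_of_lt ?_ h, fun h => ⟨_, _, h⟩⟩
  exact mul_le_mul (round_le _ p) (round_le _ r) (abs_nonneg _) (abs_nonneg _)

/-- The pairs approximated at the denominator `q`. -/
def realSet (ψ : ℕ → ℝ) (q : ℕ) : Set (ℝ × ℝ) :=
  {z | 0 < q ∧ ‖q • (z.1 : UnitAddCircle)‖ * ‖q • (z.2 : UnitAddCircle)‖ < ψ q}

theorem measurableSet_realSet (ψ : ℕ → ℝ) (q : ℕ) : MeasurableSet (realSet ψ q) := by
  refine MeasurableSet.inter (.const _) ?_
  have hmk : Continuous fun x : ℝ => (x : UnitAddCircle) := AddCircle.continuous_mk' 1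
  have h : ∀ f : ℝ × ℝ → ℝ, Continuous f →
      Continuous fun z => ‖q • ((f z : ℝ) : UnitAddCircle)‖ := fun f hf =>
    ((hmk.comp hf).const_smul q).norm
  exact (isOpen_lt ((h _ continuous_fst).mul (h _ continuous_snd))
    continuous_const).measurableSet

theorem setOf_eq_realSet (ψ : ℕ → ℝ) (z : ℝ × ℝ) :
    {q : ℕ | 0 < q ∧ ∃ p r : ℤ, |(q : ℝ) * z.1 - p| * |(q : ℝ) * z.2 - r| < ψ q} =
      {q | z ∈ realSet ψ q} := by
  ext q
  simp only [realSet, Set.mem_ofPred_eq, exists_mul_lt_iff]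

theorem measurableSet_infinite (ψ : ℕ → ℝ) :
    MeasurableSet {z : ℝ × ℝ | {q | z ∈ realSet ψ q}.Infinite} := by
  rw [← cofinite.limsup_set_eq, Nat.cofinite_eq_atTop]
  exact MeasurableSet.measurableSet_limsup (measurableSet_realSet ψ)

/-- **Gallagher's theorem**, divergence. -/
theorem ae_infinite_of_divergence {ψ : ℕ → ℝ} (h0 : ∀ q, 0 ≤ ψ q)
    (hmono : ∀ q r, 1 ≤ q → q ≤ r → ψ r ≤ ψ q)
    (hdiv : ¬Summable fun q : ℕ => ψ q * Real.log q) :
    ∀ᵐ z : ℝ × ℝ, {q : ℕ | 0 < q ∧
      ∃ p r : ℤ, |(q : ℝ) * z.1 - p| * |(q : ℝ) * z.2 - r| < ψ q}.Infinite := by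
  simp only [setOf_eq_realSet]
  rw [Measure.volume_eq_prod, Measure.ae_prod_iff_ae_ae (measurableSet_infinite ψ)]
  filter_upwards [Khintchine.ae_real_of_ae_circle (ae_not_summable h0 hmono hdiv)] with x hx
  obtain ⟨hfree, hns⟩ := hx
  have hds := FA.DuffinSchaeffer.ae_infinite_of_not_summable
    (ψ := fun q : ℕ => ψ q / ‖q • (x : UnitAddCircle)‖)
    (fun q => div_nonneg (h0 q) (norm_nonneg _)) (fun hs => hns (hs.congr fun q => by
      rw [DuffinSchaeffer.mu, term]
      ring))
  filter_upwards [hds] with y hy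
  refine hy.mono ?_
  rintro q ⟨p, -, hp⟩
  have hq : 0 < q := by
    rcases Nat.eq_zero_or_pos q with rfl | h
    · simp at hp
      exact absurd hp (not_lt.2 (abs_nonneg _))
    · exact h
  refine ⟨hq, ?_⟩
  have hpos : 0 < ‖q • (x : UnitAddCircle)‖ := norm_pos_iff.2 (hfree q hq)
  have hy' : ‖q • (y : UnitAddCircle)‖ < ψ q / ‖q • (x : UnitAddCircle)‖ := by
    have hq' : (0 : ℝ) < q := Nat.cast_pos.2 hq
    rw [← AddCircle.coe_nsmul, nsmul_eq_mul, AddCircle.norm_eq]
    simp only [inv_one, one_mul, mul_one]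
    refine (round_le _ p).trans_lt ?_
    rw [lt_div_iff₀ hq'] at hp
    refine lt_of_eq_of_lt ?_ hp
    rw [← abs_of_pos hq', ← abs_mul, abs_of_pos hq']
    congr 1
    field_simp
  rw [lt_div_iff₀ hpos] at hy'
  simpa [mul_comm] using hy'

/-- **Gallagher's theorem**, convergence. -/
theorem ae_finite_of_convergence {ψ : ℕ → ℝ} (h0 : ∀ q, 0 ≤ ψ q)
    (hs : Summable fun q : ℕ => ψ q * Real.log q) :
    ∀ᵐ z : ℝ × ℝ, {q : ℕ | 0 < q ∧
      ∃ p r : ℤ, |(q : ℝ) * z.1 - p| * |(q : ℝ) * z.2 - r| < ψ q}.Finite := by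
  set E : ℕ → Set (UnitAddCircle × UnitAddCircle) := fun q =>
    if q < 2 then ∅ else
      (Prod.map (fun a : UnitAddCircle => q • a) fun a : UnitAddCircle => q • a) ⁻¹'
        hyperbolic (ψ q) with hE
  set b : ℕ → ℝ := fun q => 2 * (1 / (q : ℝ) ^ 3) + 96 * (ψ q * Real.log q) with hb
  have hb0 : ∀ q, 0 ≤ b q := fun q => by
    have := mul_nonneg (h0 q) (Real.log_natCast_nonneg q)
    simp only [hb]
    positivity
  have hμ : ∀ q, (volume : Measure (UnitAddCircle × UnitAddCircle)) (E q) ≤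
      ENNReal.ofReal (b q) := fun q => by
    by_cases hq : q < 2
    · simp only [hE, if_pos hq, measure_empty]
      exact zero_le
    simp only [hE, if_neg hq]
    have hmp := (measurePreserving_nsmul (show 0 < q by omega)).prod
      (measurePreserving_nsmul (show 0 < q by omega))
    rw [Measure.volume_eq_prod, hmp.measure_preimage
      (measurableSet_hyperbolic _).nullMeasurableSet, ← Measure.volume_eq_prod,
      ← ofReal_measureReal (measure_ne_top _ _)]
    refine ENNReal.ofReal_le_ofReal ?_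
    refine (measureReal_hyperbolic_le (h0 q) (3 * (Nat.log 2 q + 1))).trans ?_
    have hq1 : (1 : ℝ) < q := by exact_mod_cast (show 1 < q by omega)
    have hlt : (q : ℝ) ≤ (2 : ℝ) ^ (Nat.log 2 q + 1) := by
      exact_mod_cast (Nat.lt_pow_succ_log_self one_lt_two q).le
    have hlog : ((Nat.log 2 q : ℝ) + 1) ≤ 4 * Real.log q := by
      have h2 : (2 : ℝ) ^ Nat.log 2 q ≤ q := by
        exact_mod_cast Nat.pow_log_le_self 2 (show q ≠ 0 by omega)
      have h := Real.log_le_log (by positivity) h2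
      rw [Real.log_pow] at h
      have h2' : (2 : ℝ) ≤ q := by exact_mod_cast (show 2 ≤ q by omega)
      have := Real.log_le_log two_pos h2'
      have hhalf : (1 : ℝ) / 2 ≤ Real.log 2 := by
        have := Real.one_sub_inv_le_log_of_pos (two_pos (α := ℝ))
        norm_num at this ⊢
        exact this
      nlinarith [mul_le_mul_of_nonneg_left hhalf (Nat.cast_nonneg (α := ℝ) (Nat.log 2 q))]
    refine add_le_add (mul_le_mul_of_nonneg_left ?_ zero_le_two) ?_
    · rw [one_div, mul_comm 3, pow_mul]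
      exact inv_anti₀ (by positivity) (pow_le_pow_left₀ (by positivity) hlt 3)
    · push_cast
      nlinarith [mul_le_mul_of_nonneg_left hlog (h0 q)]
  have hbs : Summable b := by
    refine ((Real.summable_one_div_nat_pow.2 (by norm_num : 1 < 3)).mul_left 2).add
      (hs.mul_left 96) |>.congr fun q => ?_
    rfl
  have hsum : ∑' q, (volume : Measure (UnitAddCircle × UnitAddCircle)) (E q) ≠ ⊤ :=
    ne_top_of_le_ne_top (ENNReal.ofReal_tsum_of_nonneg hb0 hbs ▸ ENNReal.ofReal_ne_top)
      (ENNReal.tsum_le_tsum hμ)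
  have hbc := ae_eventually_notMem hsum
  rw [Measure.volume_eq_prod] at hbc
  have h2 := Khintchine.ae_real_of_ae_circle
    ((Measure.ae_ae_of_ae_prod hbc).mono fun a ha => Khintchine.ae_real_of_ae_circle ha)
  simp only [setOf_eq_realSet]
  rw [Measure.volume_eq_prod, Measure.ae_prod_iff_ae_ae (by
    have := (measurableSet_infinite ψ).compl
    simpa only [Set.compl_ofPred, Set.not_infinite] using this)]
  filter_upwards [h2] with x hx
  filter_upwards [hx] with y hy
  obtain ⟨Q, hQ⟩ := eventually_atTop.1 hy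
  refine (range (max Q 2)).finite_toSet.subset fun q hq => ?_
  rw [mem_coe, mem_range]
  by_contra hc
  refine hQ q (le_trans (le_max_left Q 2) (not_lt.1 hc)) ?_
  simp only [hE, if_neg (show ¬q < 2 by omega)]
  exact hq.2

/-- `∑ log q / (q (log (q + 2)) ^ 2)` diverges. -/
theorem not_summable_littlewood {ε : ℝ} (hε : 0 < ε) :
    ¬Summable fun q : ℕ => ε / ((q : ℝ) * Real.log ((q : ℝ) + 2) ^ 2) * Real.log q := by
  intro hs
  set g : ℕ → ℝ := fun q => 1 / ((q : ℝ) * Real.log ((q : ℝ) + 2)) with hg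
  have hpos : ∀ q : ℕ, 0 < Real.log ((q : ℝ) + 2) := fun q =>
    Real.log_pos (by linarith [(Nat.cast_nonneg q : (0 : ℝ) ≤ q)])
  have hg0 : ∀ q, 0 ≤ g q := fun q => by
    have := hpos q
    simp only [hg]
    positivity
  have hgs : Summable g := by
    refine Summable.of_norm_bounded_eventually (hs.mul_left (2 / ε)) ?_
    rw [Nat.cofinite_eq_atTop]
    filter_upwards [eventually_ge_atTop 2] with q hq
    have hq' : (2 : ℝ) ≤ q := by exact_mod_cast hq
    have hlog : 0 < Real.log q := Real.log_pos (by linarith)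
    have hle : Real.log ((q : ℝ) + 2) ≤ 2 * Real.log q := by
      rw [show 2 * Real.log q = Real.log ((q : ℝ) ^ 2) by rw [Real.log_pow]; norm_num]
      exact Real.log_le_log (by linarith) (by nlinarith)
    rw [Real.norm_eq_abs, abs_of_nonneg (hg0 q)]
    have hL := hpos q
    simp only [hg]
    rw [div_le_iff₀ (by positivity)]
    field_simp
    nlinarith
  have hc := (summable_condensed_iff_of_nonneg hg0 fun m n hm hmn => by
    have hm' : (0 : ℝ) < m := Nat.cast_pos.2 hm
    have hmn' : (m : ℝ) ≤ n := Nat.cast_le.2 hmn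
    simp only [hg]
    refine one_div_le_one_div_of_le (mul_pos hm' (hpos m)) ?_
    exact mul_le_mul hmn' (Real.log_le_log (by linarith) (by linarith)) (hpos m).le
      (by linarith)).2 hgs
  refine Real.not_summable_one_div_natCast ((summable_nat_add_iff 2).1 ?_)
  refine Summable.of_nonneg_of_le (fun k => by positivity) (fun k => ?_) hc
  have hL := hpos (2 ^ k)
  simp only [hg]
  push_cast at hL ⊢
  have hle : Real.log ((2 : ℝ) ^ k + 2) ≤ (k : ℝ) + 2 := by
    have h2 : (2 : ℝ) ^ k + 2 ≤ 2 ^ (k + 2) := by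
      rw [pow_add]
      nlinarith [one_le_pow₀ (M₀ := ℝ) one_le_two (n := k)]
    refine (Real.log_le_log (by positivity) h2).trans ?_
    rw [Real.log_pow]
    push_cast
    exact mul_le_of_le_one_right (by positivity)
      ((Real.log_le_sub_one_of_pos two_pos).trans (by norm_num))
  calc 1 / ((k : ℝ) + 2) ≤ 1 / Real.log ((2 : ℝ) ^ k + 2) := one_div_le_one_div_of_le hL hle
    _ = _ := by field_simp

/-- **Littlewood's conjecture for almost every pair**, with two logarithms to spare. -/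
theorem ae_littlewood : ∀ᵐ z : ℝ × ℝ, ∀ ε : ℝ, 0 < ε → {q : ℕ | 0 < q ∧ ∃ p r : ℤ,
    (q : ℝ) * Real.log q ^ 2 * (|(q : ℝ) * z.1 - p| * |(q : ℝ) * z.2 - r|) < ε}.Infinite := by
  have key : ∀ n : ℕ, ∀ᵐ z : ℝ × ℝ, {q : ℕ | 0 < q ∧ ∃ p r : ℤ,
      |(q : ℝ) * z.1 - p| * |(q : ℝ) * z.2 - r| <
        1 / ((n : ℝ) + 1) / ((q : ℝ) * Real.log ((q : ℝ) + 2) ^ 2)}.Infinite := fun n => by
    refine ae_infinite_of_divergence (fun q => by positivity) (fun a b ha hab => ?_)
      (not_summable_littlewood (by positivity))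
    have ha' : (1 : ℝ) ≤ a := by exact_mod_cast ha
    have hab' : (a : ℝ) ≤ b := Nat.cast_le.2 hab
    have hl : 0 < Real.log ((a : ℝ) + 2) := Real.log_pos (by linarith)
    refine div_le_div_of_nonneg_left (by positivity) (by positivity) (mul_le_mul hab'
      (pow_le_pow_left₀ hl.le (Real.log_le_log (by linarith) (by linarith)) 2) (by positivity)
      (by linarith))
  filter_upwards [ae_all_iff.2 key] with z hz ε hε
  obtain ⟨n, hn⟩ := exists_nat_one_div_lt hε
  refine (hz n).mono ?_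
  rintro q ⟨hq, p, r, h⟩
  refine ⟨hq, p, r, ?_⟩
  have hq' : (1 : ℝ) ≤ q := by exact_mod_cast hq
  have hl : 0 < Real.log ((q : ℝ) + 2) := Real.log_pos (by linarith)
  rw [lt_div_iff₀ (by positivity)] at h
  refine lt_of_le_of_lt ?_ (h.trans hn)
  rw [mul_comm _ ((q : ℝ) * Real.log ((q : ℝ) + 2) ^ 2)]
  refine mul_le_mul_of_nonneg_right (mul_le_mul_of_nonneg_left (pow_le_pow_left₀
    (Real.log_nonneg hq') (Real.log_le_log (by linarith) (by linarith)) 2) (by linarith)) ?_
  positivity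

/-- `∑ 1 / (q (log q) ^ (1 + η))` converges. -/
theorem summable_log_power {η : ℝ} (hη : 0 < η) :
    Summable fun q : ℕ => 1 / ((q : ℝ) * Real.log q ^ (1 + η)) := by
  set g : ℕ → ℝ := fun q => 1 / ((q : ℝ) * Real.log ((q : ℝ) + 1) ^ (1 + η)) with hg
  have hl0 : ∀ q : ℕ, 0 ≤ Real.log ((q : ℝ) + 1) := fun q =>
    Real.log_nonneg (by linarith [(Nat.cast_nonneg q : (0 : ℝ) ≤ q)])
  have hg0 : ∀ q, 0 ≤ g q := fun q => by
    have := hl0 q
    simp only [hg]
    positivity
  have hgs : Summable g := by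
    refine (summable_condensed_iff_of_nonneg hg0 fun m n hm hmn => ?_).1 ?_
    · have hm' : (1 : ℝ) ≤ m := by exact_mod_cast hm
      have hmn' : (m : ℝ) ≤ n := Nat.cast_le.2 hmn
      have : 0 < Real.log ((m : ℝ) + 1) := Real.log_pos (by linarith)
      simp only [hg]
      refine one_div_le_one_div_of_le (by positivity) (mul_le_mul hmn'
        (Real.rpow_le_rpow this.le (Real.log_le_log (by linarith) (by linarith)) (by linarith))
        (by positivity) (by linarith))
    have hp : Summable fun k : ℕ => 4 ^ (1 + η) * (1 / ((k + 1 : ℕ) : ℝ) ^ (1 + η)) :=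
      ((summable_nat_add_iff 1).2 (Real.summable_one_div_nat_rpow.2 (by linarith))).mul_left _
    refine Summable.of_nonneg_of_le (fun k => mul_nonneg (by positivity) (hg0 _)) (fun k => ?_) hp
    simp only [hg]
    push_cast
    have hlow : ((k : ℝ) + 1) / 4 ≤ Real.log ((2 : ℝ) ^ k + 1) := by
      have hhalf : (1 : ℝ) / 2 ≤ Real.log 2 := by
        have := Real.one_sub_inv_le_log_of_pos (two_pos (α := ℝ))
        norm_num at this ⊢
        exact this
      rcases Nat.eq_zero_or_pos k with rfl | hk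
      · norm_num
        linarith
      have hk' : (1 : ℝ) ≤ k := by exact_mod_cast hk
      refine le_trans ?_ (Real.log_le_log (by positivity) (le_add_of_nonneg_right zero_le_one))
      rw [Real.log_pow]
      nlinarith
    have hp : 0 < (((k : ℝ) + 1) / 4) ^ (1 + η) := by positivity
    calc (2 : ℝ) ^ k * (1 / ((2 : ℝ) ^ k * Real.log ((2 : ℝ) ^ k + 1) ^ (1 + η)))
        = 1 / Real.log ((2 : ℝ) ^ k + 1) ^ (1 + η) := by field_simp
      _ ≤ 1 / (((k : ℝ) + 1) / 4) ^ (1 + η) :=
          one_div_le_one_div_of_le hp (Real.rpow_le_rpow (by positivity) hlow (by linarith))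
      _ = _ := by
          rw [Real.div_rpow (by positivity) (by norm_num)]
          field_simp
  refine Summable.of_norm_bounded_eventually (hgs.mul_left ((2 : ℝ) ^ (1 + η))) ?_
  rw [Nat.cofinite_eq_atTop]
  filter_upwards [eventually_ge_atTop 2] with q hq
  have hq' : (2 : ℝ) ≤ q := by exact_mod_cast hq
  have hlog : 0 < Real.log q := Real.log_pos (by linarith)
  have hle : Real.log ((q : ℝ) + 1) ≤ 2 * Real.log q := by
    rw [show 2 * Real.log q = Real.log ((q : ℝ) ^ 2) by rw [Real.log_pow]; norm_num]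
    exact Real.log_le_log (by linarith) (by nlinarith)
  have hl1 : 0 < Real.log ((q : ℝ) + 1) := Real.log_pos (by linarith)
  have h2 := Real.rpow_le_rpow hl1.le hle (show 0 ≤ 1 + η by linarith)
  rw [Real.mul_rpow zero_le_two hlog.le] at h2
  rw [Real.norm_eq_abs, abs_of_nonneg (by positivity)]
  simp only [hg]
  rw [mul_one_div, div_le_div_iff₀ (by positivity) (by positivity)]
  nlinarith

/-- **The exponent two is best possible.** -/
theorem ae_tendsto_of_exponent {η : ℝ} (hη : 0 < η) :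
    ∀ᵐ z : ℝ × ℝ, ∀ M : ℝ, ∀ᶠ q : ℕ in atTop, ∀ p r : ℤ,
      M ≤ (q : ℝ) * Real.log q ^ (2 + η) * (|(q : ℝ) * z.1 - p| * |(q : ℝ) * z.2 - r|) := by
  have key : ∀ n : ℕ, ∀ᵐ z : ℝ × ℝ, {q : ℕ | 0 < q ∧ ∃ p r : ℤ,
      |(q : ℝ) * z.1 - p| * |(q : ℝ) * z.2 - r| <
        (n : ℝ) / ((q : ℝ) * Real.log q ^ (2 + η))}.Finite := fun n => by
    refine ae_finite_of_convergence (fun q => ?_) ?_
    · have := Real.log_natCast_nonneg q
      positivity
    refine ((summable_log_power hη).mul_left (n : ℝ)).congr fun q => ?_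
    rcases eq_or_lt_of_le (Real.log_natCast_nonneg q) with h | h
    · simp [← h, Real.zero_rpow (show 1 + η ≠ 0 by linarith)]
    · rw [show (2 : ℝ) + η = (1 + η) + 1 by ring, Real.rpow_add_one h.ne']
      field_simp
  filter_upwards [ae_all_iff.2 key] with z hz M
  obtain ⟨n, hn⟩ := exists_nat_ge M
  obtain ⟨Q, hQ⟩ := (hz n).bddAbove
  filter_upwards [eventually_gt_atTop Q, eventually_ge_atTop 2] with q hqQ hq2 p r
  by_contra hc
  refine absurd (hQ (a := q) ⟨by omega, p, r, ?_⟩) (not_le.2 hqQ)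
  have hq' : (2 : ℝ) ≤ q := by exact_mod_cast hq2
  have : 0 < Real.log q := Real.log_pos (by linarith)
  rw [lt_div_iff₀ (by positivity), mul_comm]
  exact (not_le.1 hc).trans_le hn

end FA.MultiplicativeKhintchine
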