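import Fermat.Agent.Khintchine.Overlap
import Mathlib.NumberTheory.Harmonic.Bounds
import Mathlib.Dynamics.Ergodic.AddCircle

/-!
# Overlaps of the dilated intervals

`dilate q δ` is the set of points of the circle whose multiple by `q` is within `δ` of zero. Two
of them overlap in measure at most `8 δ η + 2 gcd (q, r) min (δ, η) / min (q, r)`, and the gcd is
`O (log N)` on average over `q, r ≤ N`.
-/

set_option autoImplicit false

noncomputable section

open Finset MeasureTheory Metric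

namespace FA.MultiplicativeKhintchine

open FA.Khintchine (frac measureReal_ball norm_coe_le_abs)

/-- The points whose multiple by `q` is within `δ` of zero. -/
def dilate (q : ℕ) (δ : ℝ) : Set UnitAddCircle := (fun a : UnitAddCircle => q • a) ⁻¹' ball 0 δ

theorem mem_dilate {q : ℕ} {δ : ℝ} {a : UnitAddCircle} : a ∈ dilate q δ ↔ ‖q • a‖ < δ := by
  rw [dilate, Set.mem_preimage, mem_ball_zero_iff]

theorem measurePreserving_nsmul {n : ℕ} (hn : 0 < n) :
    MeasurePreserving (fun a : UnitAddCircle => n • a) volume volume := by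
  have h := Measure.measurePreserving_zsmul (volume : Measure UnitAddCircle)
    (Int.natCast_ne_zero.2 hn.ne')
  simpa only [natCast_zsmul] using h

theorem measurableSet_dilate (q : ℕ) (δ : ℝ) : MeasurableSet (dilate q δ) :=
  (continuous_nsmul q).measurable measurableSet_ball

theorem measureReal_dilate {q : ℕ} (hq : 0 < q) {δ : ℝ} (h0 : 0 ≤ δ) (h1 : δ ≤ 1 / 2) :
    (volume : Measure UnitAddCircle).real (dilate q δ) = 2 * δ := by
  rw [dilate, Measure.real,
    (measurePreserving_nsmul hq).measure_preimage measurableSet_ball.nullMeasurableSet,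
    ← Measure.real, measureReal_ball, min_eq_right (by linarith), max_eq_right (by linarith)]

theorem exists_frac_of_mem_dilate {q : ℕ} (hq : 0 < q) {δ : ℝ} {a : UnitAddCircle}
    (ha : a ∈ dilate q δ) : ∃ i < q, ‖a - frac q i‖ < δ / q := by
  obtain ⟨x, rfl⟩ : ∃ x : ℝ, (x : UnitAddCircle) = a := QuotientAddGroup.mk_surjective a
  rw [mem_dilate, ← AddCircle.coe_nsmul, nsmul_eq_mul, AddCircle.norm_eq] at ha
  simp only [inv_one, one_mul, mul_one] at ha
  obtain ⟨z, hz⟩ : ∃ z : ℤ, z = round ((q : ℝ) * x) := ⟨_, rfl⟩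
  rw [← hz] at ha
  have hq' : (0 : ℝ) < q := Nat.cast_pos.2 hq
  obtain ⟨i, hi⟩ : ∃ i : ℕ, (i : ℤ) = z % q :=
    ⟨(z % q).toNat, Int.toNat_of_nonneg (Int.emod_nonneg z (by omega))⟩
  refine ⟨i, ?_, ?_⟩
  · have := Int.emod_lt_of_pos z (show (0 : ℤ) < q by omega)
    omega
  have e : frac q i = (((z : ℝ) / q : ℝ) : UnitAddCircle) := by
    have hmod : (i : ℝ) = (z : ℝ) - q * ((z / q : ℤ) : ℝ) := by
      have h2 : (i : ℤ) = z - q * (z / q) := by rw [hi]; exact Int.emod_def z q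
      exact_mod_cast h2
    rw [frac, ← sub_eq_zero, ← AddCircle.coe_sub, hmod, AddCircle.coe_eq_zero_iff]
    refine ⟨-(z / q), ?_⟩
    rw [zsmul_one]
    push_cast
    field_simp
    ring
  rw [e, ← AddCircle.coe_sub]
  refine (norm_coe_le_abs _).trans_lt ?_
  rw [show x - (z : ℝ) / q = ((q : ℝ) * x - z) / q by field_simp, abs_div, abs_of_pos hq']
  exact div_lt_div_of_pos_right ha hq'

/-- The number of fractions of two coprime denominators that are `Δ` apart. -/
theorem card_near_le {q r : ℕ} (hq : 0 < q) (hr : 0 < r) (hco : Nat.Coprime q r) {Δ : ℝ}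
    (hΔ : 0 ≤ Δ) :
    (#((range q ×ˢ range r).filter fun il => ‖frac q il.1 - frac r il.2‖ < Δ) : ℝ) ≤
      2 * (q * r * Δ) + 1 := by
  obtain ⟨f, hf⟩ : ∃ f : ℕ × ℕ → ℤ, f = fun il => (il.1 : ℤ) * r - il.2 * q -
      round ((il.1 : ℝ) / q - (il.2 : ℝ) / r) * (q * r) := ⟨_, rfl⟩
  obtain ⟨M, hM⟩ : ∃ M : ℕ, M = ⌊(q : ℝ) * r * Δ⌋₊ := ⟨_, rfl⟩
  have hq' : (0 : ℝ) < q := Nat.cast_pos.2 hq
  have hr' : (0 : ℝ) < r := Nat.cast_pos.2 hr
  refine le_trans (Nat.cast_le.2 (card_le_card_of_injOn (t := Icc (-(M : ℤ)) M) f ?_ ?_)) ?_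
  · rintro ⟨i, l⟩ hil
    simp only [mem_coe, mem_filter] at hil
    have hlt := hil.2
    rw [frac, frac, ← AddCircle.coe_sub, AddCircle.norm_eq] at hlt
    simp only [one_mul, mul_one, inv_one] at hlt
    have hlt' := (mul_lt_mul_of_pos_right hlt (mul_pos hq' hr')).le
    rw [mem_coe, mem_Icc, ← abs_le, hf, Int.abs_eq_natAbs, Int.ofNat_le, hM]
    refine Nat.le_floor ?_
    rw [Nat.cast_natAbs, Int.cast_abs, mul_comm ((q : ℝ) * r)]
    refine le_of_eq_of_le ?_ hlt'
    rw [← abs_of_pos (mul_pos hq' hr'), ← abs_mul]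
    congr 1
    push_cast
    field_simp
  · rintro ⟨i, l⟩ hil ⟨i', l'⟩ hil' h
    simp only [mem_coe, mem_filter, mem_product, mem_range] at hil hil'
    obtain ⟨⟨hi, hl⟩, -⟩ := hil
    obtain ⟨⟨hi', hl'⟩, -⟩ := hil'
    rw [hf] at h
    simp only at h
    obtain ⟨z, hz⟩ : ∃ z : ℤ, z = round ((i : ℝ) / q - (l : ℝ) / r) := ⟨_, rfl⟩
    obtain ⟨z', hz'⟩ : ∃ z : ℤ, z = round ((i' : ℝ) / q - (l' : ℝ) / r) := ⟨_, rfl⟩
    rw [← hz, ← hz'] at h
    have h1 : (q : ℤ) ∣ ((i' : ℤ) - i) * r := ⟨l' - l + (z' - z) * r, by linarith⟩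
    have h2 : (r : ℤ) ∣ ((l' : ℤ) - l) * q := ⟨i' - i - (z' - z) * q, by linarith⟩
    have h1' : (q : ℤ) ∣ (i' : ℤ) - i :=
      (Int.isCoprime_iff_nat_coprime.2 (by simpa using hco)).dvd_of_dvd_mul_right h1
    have h2' : (r : ℤ) ∣ (l' : ℤ) - l :=
      (Int.isCoprime_iff_nat_coprime.2 (by simpa using hco.symm)).dvd_of_dvd_mul_right h2
    have e1 := Int.eq_zero_of_abs_lt_dvd h1' (abs_lt.2 ⟨by omega, by omega⟩)
    have e2 := Int.eq_zero_of_abs_lt_dvd h2' (abs_lt.2 ⟨by omega, by omega⟩)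
    exact Prod.ext (by simp only; omega) (by simp only; omega)
  · rw [Int.card_Icc, show ((M : ℤ) + 1 - -(M : ℤ)).toNat = 2 * M + 1 by omega]
    push_cast
    have : (M : ℝ) ≤ q * r * Δ := hM ▸ Nat.floor_le (by positivity)
    linarith

theorem measureReal_dilate_inter_of_coprime {q r : ℕ} (hq : 0 < q) (hr : 0 < r)
    (hco : Nat.Coprime q r) {δ η : ℝ} (hδ : 0 ≤ δ) (hη : 0 ≤ η) :
    (volume : Measure UnitAddCircle).real (dilate q δ ∩ dilate r η) ≤
      8 * (δ * η) + 2 * min (δ / q) (η / r) := by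
  set P := (range q ×ˢ range r).filter fun il =>
    ‖frac q il.1 - frac r il.2‖ < δ / q + η / r with hP
  set c := min (δ / q) (η / r) with hc
  have hsub : dilate q δ ∩ dilate r η ⊆
      ⋃ il ∈ P, ball (frac q il.1) (δ / q) ∩ ball (frac r il.2) (η / r) := by
    rintro a ⟨ha, hb⟩
    obtain ⟨i, hi, hi'⟩ := exists_frac_of_mem_dilate hq ha
    obtain ⟨l, hl, hl'⟩ := exists_frac_of_mem_dilate hr hb
    simp only [Set.mem_iUnion, Set.mem_inter_iff, mem_ball, dist_eq_norm, exists_prop]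
    refine ⟨(i, l), ?_, hi', hl'⟩
    simp only [hP, mem_filter, mem_product, mem_range]
    refine ⟨⟨hi, hl⟩, ?_⟩
    calc ‖frac q i - frac r l‖ = ‖(a - frac r l) - (a - frac q i)‖ := by
          rw [sub_sub_sub_cancel_left]
      _ ≤ ‖a - frac r l‖ + ‖a - frac q i‖ := norm_sub_le _ _
      _ < _ := by linarith
  refine (measureReal_mono hsub (measure_ne_top _ _)).trans
    ((measureReal_biUnion_finset_le _ _).trans ?_)
  have hc0 : 0 ≤ c := le_min (by positivity) (by positivity)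
  refine (sum_le_sum (g := fun _ => 2 * c) fun il _ => ?_).trans ?_
  · rw [hc, mul_min_of_nonneg _ _ zero_le_two]
    refine le_min ((measureReal_mono Set.inter_subset_left (measure_ne_top _ _)).trans ?_)
      ((measureReal_mono Set.inter_subset_right (measure_ne_top _ _)).trans ?_) <;>
    · rw [measureReal_ball]
      exact max_le (by positivity) (min_le_right _ _)
  rw [sum_const, nsmul_eq_mul]
  refine (mul_le_mul_of_nonneg_right (card_near_le hq hr hco (by positivity))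
    (mul_nonneg zero_le_two hc0)).trans ?_
  have hq' : (0 : ℝ) < q := Nat.cast_pos.2 hq
  have hr' : (0 : ℝ) < r := Nat.cast_pos.2 hr
  have e : (q : ℝ) * r * (δ / q + η / r) = δ * r + η * q := by field_simp
  rw [e]
  have h1 : δ * r * c ≤ δ * η := by
    refine (mul_le_mul_of_nonneg_left (min_le_right _ _) (by positivity)).trans (le_of_eq ?_)
    field_simp
  have h2 : η * q * c ≤ δ * η := by
    refine (mul_le_mul_of_nonneg_left (min_le_left _ _) (by positivity)).trans (le_of_eq ?_)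
    field_simp
  linarith

/-- **The overlap.** -/
theorem measureReal_dilate_inter_le {q r : ℕ} (hq : 0 < q) (hr : 0 < r) {Q : ℝ} (hQ : 0 < Q)
    (hQq : Q ≤ q) (hQr : Q ≤ r) {δ η : ℝ} (hδ : 0 ≤ δ) (hη : 0 ≤ η) :
    (volume : Measure UnitAddCircle).real (dilate q δ ∩ dilate r η) ≤
      8 * (δ * η) + 2 * (Nat.gcd q r * (min δ η / Q)) := by
  obtain ⟨q', r', hco, hqe, hre⟩ := Nat.exists_coprime q r
  set g := Nat.gcd q r
  have hg : 0 < g := Nat.gcd_pos_of_pos_left r hq
  have hq'0 : 0 < q' := Nat.pos_of_ne_zero fun h => hq.ne' (by rw [hqe, h, zero_mul])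
  have hr'0 : 0 < r' := Nat.pos_of_ne_zero fun h => hr.ne' (by rw [hre, h, zero_mul])
  have hpre : dilate q δ ∩ dilate r η =
      (fun a : UnitAddCircle => g • a) ⁻¹' (dilate q' δ ∩ dilate r' η) := by
    ext a
    simp only [Set.mem_inter_iff, Set.mem_preimage, mem_dilate, ← mul_nsmul']
    rw [← hqe, ← hre]
  rw [hpre, Measure.real, (measurePreserving_nsmul hg).measure_preimage
    ((measurableSet_dilate _ _).inter (measurableSet_dilate _ _)).nullMeasurableSet, ← Measure.real]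
  refine (measureReal_dilate_inter_of_coprime hq'0 hr'0 hco hδ hη).trans ?_
  have hqR : (q : ℝ) = q' * g := by exact_mod_cast hqe
  have hrR : (r : ℝ) = r' * g := by exact_mod_cast hre
  have key : ∀ (m : ℕ) (t : ℝ), 0 < m → 0 ≤ t → Q ≤ (m : ℝ) * g →
      t / m ≤ (g : ℝ) * (t / Q) := fun m t hm ht hm' => by
    rw [div_le_iff₀ (Nat.cast_pos.2 hm)]
    calc t = t / Q * Q := by field_simp
      _ ≤ t / Q * ((m : ℝ) * g) := mul_le_mul_of_nonneg_left hm' (div_nonneg ht hQ.le)
      _ = _ := by ring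
  have : min (δ / q') (η / r') ≤ (g : ℝ) * (min δ η / Q) := by
    rcases le_total δ η with h | h
    · rw [min_eq_left h]
      exact (min_le_left _ _).trans (key q' δ hq'0 hδ (hqR ▸ hQq))
    · rw [min_eq_right h]
      exact (min_le_right _ _).trans (key r' η hr'0 hη (hrR ▸ hQr))
  linarith

/-- **The gcd on average.** -/
theorem sum_gcd_le (N : ℕ) :
    ∑ q ∈ Icc 1 N, ∑ r ∈ Icc 1 N, (Nat.gcd q r : ℝ) ≤ (N : ℝ) ^ 2 * (1 + Real.log N) := by
  calc ∑ q ∈ Icc 1 N, ∑ r ∈ Icc 1 N, (Nat.gcd q r : ℝ)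
      ≤ ∑ q ∈ Icc 1 N, ∑ r ∈ Icc 1 N, ∑ d ∈ Icc 1 N,
          (if d ∣ q then (1 : ℝ) else 0) * (if d ∣ r then 1 else 0) * d := by
        refine sum_le_sum fun q hq => sum_le_sum fun r _ => ?_
        rw [mem_Icc] at hq
        refine le_trans (le_of_eq ?_) (single_le_sum (fun d _ => by positivity)
          (mem_Icc.2 ⟨Nat.gcd_pos_of_pos_left r hq.1,
            (Nat.le_of_dvd hq.1 (Nat.gcd_dvd_left q r)).trans hq.2⟩))
        rw [if_pos (Nat.gcd_dvd_left q r), if_pos (Nat.gcd_dvd_right q r), one_mul, one_mul]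
    _ = ∑ d ∈ Icc 1 N, (∑ q ∈ Icc 1 N, if d ∣ q then (1 : ℝ) else 0) *
          (∑ r ∈ Icc 1 N, if d ∣ r then (1 : ℝ) else 0) * d := by
        rw [sum_congr rfl fun q _ => sum_comm, sum_comm]
        refine sum_congr rfl fun d _ => ?_
        rw [sum_mul_sum, sum_mul]
        exact sum_congr rfl fun q _ => (sum_mul _ _ _).symm
    _ ≤ ∑ d ∈ Icc 1 N, (N : ℝ) ^ 2 * (d : ℝ)⁻¹ := by
        refine sum_le_sum fun d hd => ?_
        have hd' : (0 : ℝ) < d := Nat.cast_pos.2 (mem_Icc.1 hd).1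
        have hcount : ∑ q ∈ Icc 1 N, (if d ∣ q then (1 : ℝ) else 0) ≤ N / d := by
          rw [← sum_filter, sum_const, nsmul_eq_mul, mul_one, show Icc 1 N = Ioc 0 N from rfl,
            Nat.Ioc_filter_dvd_card_eq_div]
          exact Nat.cast_div_le
        refine (mul_le_mul_of_nonneg_right (mul_le_mul hcount hcount
          (sum_nonneg fun i _ => by positivity) (by positivity)) hd'.le).trans (le_of_eq ?_)
        field_simp
    _ ≤ _ := by
        rw [← mul_sum]
        refine mul_le_mul_of_nonneg_left ?_ (sq_nonneg _)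
        refine le_of_eq_of_le ?_ (harmonic_le_one_add_log N)
        rw [harmonic_eq_sum_Icc]
        push_cast
        rfl

end FA.MultiplicativeKhintchine
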