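import Fermat.Agent.MultiplicativeKhintchine.Blocks

/-!
# Divergence of `∑ φ q ψ q / (q ‖q a‖)` for almost every `a`

For antitone `ψ` with `∑ ψ q log q = ∞` the partial sums reach half of their mean on a set of
measure at least `1 / 12000`, by the second moment. The set of divergence is mapped into itself by
`a ↦ 2 a`, so by ergodicity it has full measure.
-/

set_option autoImplicit false

noncomputable section

open Finset MeasureTheory Metric Filter
open scoped Topology ENNReal

namespace FA.MultiplicativeKhintchine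

variable {ψ : ℕ → ℝ}

/-- The term of the series. -/
def term (ψ : ℕ → ℝ) (a : UnitAddCircle) (q : ℕ) : ℝ :=
  (q.totient : ℝ) / q * ψ q / ‖q • a‖

/-- The points that are not torsion. -/
def free : Set UnitAddCircle := {a | ∀ q : ℕ, 0 < q → q • a ≠ 0}

/-- The weighted sum over the first `N` blocks. -/
def partialBlocks (ψ : ℕ → ℝ) (N : ℕ) (a : UnitAddCircle) : ℝ :=
  ∑ j ∈ range N, ψ (8 ^ (j + 1)) * blockSum j a

/-- Its mean. -/
def partialMean (ψ : ℕ → ℝ) (N : ℕ) : ℝ := ∑ j ∈ range N, ψ (8 ^ (j + 1)) * blockMean j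

theorem term_nonneg (h0 : ∀ q, 0 ≤ ψ q) (a : UnitAddCircle) (q : ℕ) : 0 ≤ term ψ a q :=
  div_nonneg (mul_nonneg (totient_div_nonneg q) (h0 q)) (norm_nonneg _)

theorem ae_free : ∀ᵐ a : UnitAddCircle, a ∈ free := by
  refine ae_all_iff.2 fun q => ?_
  rcases Nat.eq_zero_or_pos q with rfl | hq
  · exact Eventually.of_forall fun a h => absurd h (lt_irrefl 0)
  have h0 : (volume : Measure UnitAddCircle) {0} = 0 := by
    rw [← closedBall_zero (x := (0 : UnitAddCircle)), AddCircle.volume_closedBall]
    simp
  have hnull : (volume : Measure UnitAddCircle) ((fun a : UnitAddCircle => q • a) ⁻¹' {0}) = 0 := by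
    rw [(measurePreserving_nsmul hq).measure_preimage
      (measurableSet_singleton 0).nullMeasurableSet, h0]
  rw [ae_iff]
  refine measure_mono_null (fun a ha => ?_) hnull
  simp only [Set.mem_ofPred_eq, Classical.not_imp, not_not] at ha
  exact ha.2

/-- The divergence of `∑ ψ q log q` gives that of the weights of the blocks. -/
theorem not_summable_weights (h0 : ∀ q, 0 ≤ ψ q) (hmono : ∀ q r, 1 ≤ q → q ≤ r → ψ r ≤ ψ q)
    (hdiv : ¬Summable fun q : ℕ => ψ q * Real.log q) :
    ¬Summable fun j : ℕ => ψ (8 ^ (j + 1)) * (((j : ℝ) + 1) * 8 ^ j) := by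
  intro hs
  set v : ℕ → ℝ := fun j => ψ (8 ^ j) * (((j : ℝ) + 1) * 8 ^ j) with hv
  have hv0 : ∀ j, 0 ≤ v j := fun j => mul_nonneg (h0 _) (by positivity)
  have hvs : Summable v := by
    refine (summable_nat_add_iff 1).1 (Summable.of_nonneg_of_le (fun j => hv0 _) (fun j => ?_)
      (hs.mul_left 16))
    simp only [hv]
    rw [mul_left_comm (16 : ℝ)]
    refine mul_le_mul_of_nonneg_left ?_ (h0 _)
    rw [pow_succ]
    push_cast
    nlinarith [show (0 : ℝ) ≤ (j : ℝ) * 8 ^ j by positivity,
      show (0 : ℝ) ≤ (8 : ℝ) ^ j by positivity]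
  have hf0 : ∀ q : ℕ, 0 ≤ ψ q * Real.log q := fun q =>
    mul_nonneg (h0 q) (Real.log_natCast_nonneg q)
  have hblock : ∀ j, ∑ q ∈ Ioc ((8 : ℕ) ^ j) (8 ^ (j + 1)), ψ q * Real.log q ≤
      7 * Real.log 8 * v j := fun j => by
    have hle : ∀ q ∈ Ioc ((8 : ℕ) ^ j) (8 ^ (j + 1)),
        ψ q * Real.log q ≤ ψ (8 ^ j) * (((j : ℝ) + 1) * Real.log 8) := fun q hq => by
      rw [mem_Ioc] at hq
      have hq0 : 0 < q := by omega
      refine mul_le_mul (hmono _ _ (Nat.one_le_pow _ _ (by norm_num)) hq.1.le) ?_
        (Real.log_natCast_nonneg q) (h0 _)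
      have h := Real.log_le_log (Nat.cast_pos.2 hq0) (show (q : ℝ) ≤ (8 : ℝ) ^ (j + 1) by
        exact_mod_cast hq.2)
      rw [Real.log_pow] at h
      push_cast at h
      exact h
    refine (sum_le_sum hle).trans (le_of_eq ?_)
    rw [sum_const, Nat.card_Ioc, nsmul_eq_mul,
      Nat.cast_sub (Nat.pow_le_pow_right (by norm_num) (Nat.le_add_right j 1)), hv]
    push_cast
    ring
  refine hdiv (summable_of_sum_range_le (c := 7 * Real.log 8 * ∑' j, v j) hf0 fun n => ?_)
  have htel : ∀ M, ∑ j ∈ range M, ∑ q ∈ Ioc ((8 : ℕ) ^ j) (8 ^ (j + 1)), ψ q * Real.log q =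
      ∑ q ∈ Ioc 1 ((8 : ℕ) ^ M), ψ q * Real.log q := fun M => by
    induction M with
    | zero => simp
    | succ M ih =>
      rw [sum_range_succ, ih, sum_Ioc_consecutive _ (Nat.one_le_pow _ _ (by norm_num))
        (Nat.pow_le_pow_right (by norm_num) (Nat.le_add_right M 1))]
  calc ∑ q ∈ range n, ψ q * Real.log q
      = ∑ q ∈ (range n).filter (1 < ·), ψ q * Real.log q := by
        refine (sum_filter_of_ne fun q _ hne => ?_).symm
        by_contra hq
        interval_cases q <;> simp at hne
    _ ≤ ∑ q ∈ Ioc 1 ((8 : ℕ) ^ n), ψ q * Real.log q := by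
        refine sum_le_sum_of_subset_of_nonneg (fun q hq => ?_) fun q _ _ => hf0 q
        rw [mem_filter, mem_range] at hq
        exact mem_Ioc.2 ⟨hq.2, (hq.1.trans (Nat.lt_pow_self (by norm_num))).le⟩
    _ ≤ ∑ j ∈ range n, 7 * Real.log 8 * v j := htel n ▸ sum_le_sum fun j _ => hblock j
    _ ≤ _ := by
        rw [← mul_sum]
        exact mul_le_mul_of_nonneg_left (hvs.sum_le_tsum _ fun j _ => hv0 j)
          (mul_nonneg (by norm_num) (Real.log_nonneg (by norm_num)))

theorem tendsto_partialMean (h0 : ∀ q, 0 ≤ ψ q) (hmono : ∀ q r, 1 ≤ q → q ≤ r → ψ r ≤ ψ q)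
    (hdiv : ¬Summable fun q : ℕ => ψ q * Real.log q) :
    Tendsto (partialMean ψ) atTop atTop := by
  refine (not_summable_iff_tendsto_nat_atTop_of_nonneg
    fun j => mul_nonneg (h0 _) (blockMean_pos j).le).1 fun hs => ?_
  refine not_summable_weights h0 hmono hdiv
    (Summable.of_nonneg_of_le (fun j => mul_nonneg (h0 _) (by positivity)) (fun j => ?_) hs)
  refine mul_le_mul_of_nonneg_left (le_trans ?_ (le_blockMean j)) (h0 _)
  nlinarith [show (0 : ℝ) ≤ ((j : ℝ) + 1) * 8 ^ j by positivity]

theorem integrable_partialBlocks (N : ℕ) :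
    Integrable (partialBlocks ψ N) (volume : Measure UnitAddCircle) :=
  integrable_finsetSum _ fun j _ => (integrable_blockSum j).const_mul _

theorem integral_partialBlocks (N : ℕ) :
    ∫ a, partialBlocks ψ N a ∂(volume : Measure UnitAddCircle) = partialMean ψ N := by
  simp only [partialBlocks, partialMean]
  rw [integral_finsetSum _ fun j _ => (integrable_blockSum j).const_mul _]
  simp only [integral_const_mul, integral_blockSum]

theorem integral_mul_blockSum_le (i l : ℕ) :
    ∫ a, blockSum i a * blockSum l a ∂(volume : Measure UnitAddCircle) ≤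
      2146 * (blockMean i * blockMean l) := by
  have hi := blockMean_pos i
  have hl := blockMean_pos l
  set t := blockMean l / blockMean i with ht
  have ht0 : 0 < t := div_pos hl hi
  calc ∫ a, blockSum i a * blockSum l a ∂(volume : Measure UnitAddCircle)
      ≤ ∫ a, t / 2 * (blockSum i a * blockSum i a) +
          1 / (2 * t) * (blockSum l a * blockSum l a) ∂(volume : Measure UnitAddCircle) := by
        refine integral_mono (integrable_blockSum_mul i l) (((integrable_blockSum_mul i i).const_mul
          _).add ((integrable_blockSum_mul l l).const_mul _)) fun a => ?_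
        have h := sq_nonneg (t * blockSum i a - blockSum l a)
        field_simp
        nlinarith
    _ ≤ t / 2 * (2146 * blockMean i ^ 2) + 1 / (2 * t) * (2146 * blockMean l ^ 2) := by
        rw [integral_add ((integrable_blockSum_mul i i).const_mul _)
          ((integrable_blockSum_mul l l).const_mul _), integral_const_mul, integral_const_mul]
        exact add_le_add (mul_le_mul_of_nonneg_left (integral_blockSum_sq_le i) (by positivity))
          (mul_le_mul_of_nonneg_left (integral_blockSum_sq_le l) (by positivity))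
    _ = _ := by
        rw [ht]
        field_simp
        ring

theorem integral_partialBlocks_sq_le (h0 : ∀ q, 0 ≤ ψ q) (N : ℕ) :
    ∫ a, partialBlocks ψ N a * partialBlocks ψ N a ∂(volume : Measure UnitAddCircle) ≤
      2146 * partialMean ψ N ^ 2 := by
  have e : ∀ a, partialBlocks ψ N a * partialBlocks ψ N a = ∑ i ∈ range N, ∑ l ∈ range N,
      ψ (8 ^ (i + 1)) * ψ (8 ^ (l + 1)) * (blockSum i a * blockSum l a) := fun a => by
    rw [partialBlocks, sum_mul_sum]
    exact sum_congr rfl fun i _ => sum_congr rfl fun l _ => by ring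
  simp only [e]
  rw [integral_finsetSum _ fun i _ => integrable_finsetSum _ fun l _ =>
    (integrable_blockSum_mul i l).const_mul _, sq, partialMean, sum_mul_sum, mul_sum]
  refine sum_le_sum fun i _ => ?_
  rw [integral_finsetSum _ fun l _ => (integrable_blockSum_mul i l).const_mul _, mul_sum]
  refine sum_le_sum fun l _ => ?_
  rw [integral_const_mul]
  exact (mul_le_mul_of_nonneg_left (integral_mul_blockSum_le i l)
    (mul_nonneg (h0 _) (h0 _))).trans (le_of_eq (by ring))

theorem measurable_partialBlocks (ψ : ℕ → ℝ) (N : ℕ) : Measurable (partialBlocks ψ N) :=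
  Finset.measurable_sum _ fun j _ => (measurable_blockSum j).const_mul _

/-- **The inequality of Paley and Zygmund.** -/
theorem large_partialBlocks (h0 : ∀ q, 0 ≤ ψ q) {N : ℕ} (hN : 0 < partialMean ψ N) :
    1 / 12000 ≤ (volume : Measure UnitAddCircle).real
      {a | partialMean ψ N / 2 ≤ partialBlocks ψ N a} := by
  set m := partialMean ψ N with hm
  set E := {a | m / 2 ≤ partialBlocks ψ N a} with hE
  have hEm : MeasurableSet E := measurableSet_le measurable_const (measurable_partialBlocks ψ N)
  set c := 4 * 2146 * m with hc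
  have hc0 : 0 < c := by positivity
  have hint2 : Integrable (fun a => partialBlocks ψ N a * partialBlocks ψ N a)
      (volume : Measure UnitAddCircle) := by
    simp only [partialBlocks, sum_mul_sum, mul_mul_mul_comm]
    exact integrable_finsetSum _ fun i _ => integrable_finsetSum _ fun l _ =>
      (integrable_blockSum_mul i l).const_mul _
  have hpt : ∀ a, partialBlocks ψ N a ≤ m / 2 +
      (1 / (2 * c) * (partialBlocks ψ N a * partialBlocks ψ N a) +
        c / 2 * E.indicator (fun _ => (1 : ℝ)) a) := fun a => by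
    have hsq : 0 ≤ partialBlocks ψ N a * partialBlocks ψ N a := mul_self_nonneg _
    by_cases ha : a ∈ E
    · rw [Set.indicator_of_mem ha, mul_one]
      refine le_add_of_nonneg_of_le (by linarith) ?_
      have h := sq_nonneg (partialBlocks ψ N a - c)
      field_simp
      nlinarith
    · rw [Set.indicator_of_notMem ha, mul_zero, add_zero]
      simp only [hE, Set.mem_ofPred_eq, not_le] at ha
      have : 0 ≤ 1 / (2 * c) * (partialBlocks ψ N a * partialBlocks ψ N a) := by positivity
      linarith
  have h := integral_mono (integrable_partialBlocks N) ((integrable_const (m / 2)).add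
    ((hint2.const_mul _).add ((integrable_indicator hEm).const_mul _))) hpt
  rw [integral_partialBlocks] at h
  simp only [Pi.add_apply] at h
  rw [integral_add (integrable_const _) ((hint2.const_mul _).fun_add
      ((integrable_indicator hEm).const_mul _)),
    integral_add (hint2.const_mul _) ((integrable_indicator hEm).const_mul _),
    integral_const, integral_const_mul, integral_const_mul, integral_indicator_one hEm,
    show (volume : Measure UnitAddCircle).real Set.univ = 1 by
      simp [Measure.real, AddCircle.measure_univ], one_smul] at h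
  have h2 : 1 / (2 * c) * ∫ a, partialBlocks ψ N a * partialBlocks ψ N a
      ∂(volume : Measure UnitAddCircle) ≤ m / 8 := by
    refine (mul_le_mul_of_nonneg_left (integral_partialBlocks_sq_le h0 N) (by positivity)).trans ?_
    rw [← hm, hc]
    refine le_of_eq ?_
    field_simp
    ring
  have h3 : m * (3 / 8) ≤ m * (2 * 2146 * (volume : Measure UnitAddCircle).real E) := by
    rw [hc] at h h2
    linarith
  have := le_of_mul_le_mul_left h3 hN
  linarith

theorem partialBlocks_le (h0 : ∀ q, 0 ≤ ψ q) (hmono : ∀ q r, 1 ≤ q → q ≤ r → ψ r ≤ ψ q)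
    {a : UnitAddCircle} (ha : a ∈ free) (hs : Summable (term ψ a)) (N : ℕ) :
    partialBlocks ψ N a ≤ 2 * ∑' q, term ψ a q := by
  have htel : ∀ M, ∑ j ∈ range M, ∑ q ∈ Ioc ((8 : ℕ) ^ j) (8 ^ (j + 1)), term ψ a q =
      ∑ q ∈ Ioc 1 ((8 : ℕ) ^ M), term ψ a q := fun M => by
    induction M with
    | zero => simp
    | succ M ih =>
      rw [sum_range_succ, ih, sum_Ioc_consecutive _ (Nat.one_le_pow _ _ (by norm_num))
        (Nat.pow_le_pow_right (by norm_num) (Nat.le_add_right M 1))]
  refine le_trans ?_ (mul_le_mul_of_nonneg_left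
    (hs.sum_le_tsum (Ioc 1 ((8 : ℕ) ^ N)) fun q _ => term_nonneg h0 a q) zero_le_two)
  rw [← htel N, mul_sum, partialBlocks]
  refine sum_le_sum fun j _ => ?_
  refine (mul_le_mul_of_nonneg_left (blockSum_le ha j) (h0 _)).trans ?_
  rw [mul_left_comm, mul_sum]
  refine mul_le_mul_of_nonneg_left (sum_le_sum fun q hq => ?_) zero_le_two
  rw [mem_Ioc] at hq
  have := hmono q _ (by omega) hq.2
  rw [term, mul_div_assoc', mul_comm ((q.totient : ℝ) / q) (ψ q)]
  exact div_le_div_of_nonneg_right (mul_le_mul_of_nonneg_right this (totient_div_nonneg q))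
    (norm_nonneg _)

/-- **Divergence almost everywhere.** -/
theorem ae_not_summable (h0 : ∀ q, 0 ≤ ψ q) (hmono : ∀ q r, 1 ≤ q → q ≤ r → ψ r ≤ ψ q)
    (hdiv : ¬Summable fun q : ℕ => ψ q * Real.log q) :
    ∀ᵐ a : UnitAddCircle, a ∈ free ∧ ¬Summable (term ψ a) := by
  set A : Set UnitAddCircle := free ∩ {a | ∑' q, ENNReal.ofReal (term ψ a q) = ⊤} with hA
  have hiff : ∀ a, ∑' q, ENNReal.ofReal (term ψ a q) = ⊤ ↔ ¬Summable (term ψ a) := fun a => by
    refine ⟨fun h hs => ?_, fun h => ?_⟩
    · rw [← ENNReal.ofReal_tsum_of_nonneg (term_nonneg h0 a) hs] at h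
      exact ENNReal.ofReal_ne_top h
    · by_contra hne
      refine h ((ENNReal.summable_toReal hne).congr fun q => ?_)
      rw [ENNReal.toReal_ofReal (term_nonneg h0 a q)]
  have hfree : MeasurableSet free := by
    have e : free = ⋂ (q : ℕ) (_ : 0 < q), ((fun a : UnitAddCircle => q • a) ⁻¹' {0})ᶜ := by
      ext a
      simp [free]
    rw [e]
    exact MeasurableSet.iInter fun q => MeasurableSet.iInter fun _ =>
      ((continuous_nsmul q).measurable (measurableSet_singleton 0)).compl
  have hAm : MeasurableSet A := hfree.inter ((Measurable.tsum fun q =>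
    ENNReal.measurable_ofReal.comp (measurable_const.div (continuous_nsmul q).norm.measurable))
    (measurableSet_singleton ⊤))
  have hinv : A ⊆ (fun a : UnitAddCircle => 2 • a) ⁻¹' A := by
    rintro a ⟨hf, ht⟩
    refine ⟨fun q hq => by rw [← mul_nsmul']; exact hf _ (Nat.mul_pos hq two_pos), ?_⟩
    rw [Set.mem_ofPred_eq, hiff] at ht ⊢
    intro hs
    refine ht (Summable.of_nonneg_of_le (term_nonneg h0 a) (fun q => ?_) (hs.mul_left 2))
    rcases Nat.eq_zero_or_pos q with rfl | hq
    · simp [term]
    have hpos : 0 < ‖q • (2 : ℕ) • a‖ := by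
      refine norm_pos_iff.2 ?_
      rw [← mul_nsmul']
      exact hf _ (Nat.mul_pos hq two_pos)
    have hle : ‖q • (2 : ℕ) • a‖ ≤ 2 * ‖q • a‖ := by
      rw [← mul_nsmul', mul_comm q 2, mul_nsmul']
      exact (norm_nsmul_le).trans (le_of_eq (by norm_num))
    have hc : 0 ≤ (q.totient : ℝ) / q * ψ q := mul_nonneg (totient_div_nonneg q) (h0 q)
    calc term ψ a q = 2 * ((q.totient : ℝ) / q * ψ q) / (2 * ‖q • a‖) := by rw [term]; ring
      _ ≤ 2 * ((q.totient : ℝ) / q * ψ q) / ‖q • (2 : ℕ) • a‖ :=
          div_le_div_of_nonneg_left (by positivity) hpos hle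
      _ = _ := by rw [term]; ring
  have hpos : (volume : Measure UnitAddCircle) A ≠ 0 := by
    intro hnull
    obtain ⟨N₀, hN₀⟩ := eventually_atTop.1
      ((tendsto_partialMean h0 hmono hdiv).eventually_gt_atTop 0)
    have hlow : ENNReal.ofReal (1 / 12000) ≤ (volume : Measure UnitAddCircle)
        (limsup (fun N => {a | partialMean ψ N / 2 ≤ partialBlocks ψ N a}) atTop) := by
      refine Khintchine.ofReal_le_measure_limsup
        (fun N => measurableSet_le measurable_const (measurable_partialBlocks ψ N)) fun n₀ =>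
          ⟨{max n₀ N₀}, fun n hn => ?_, ?_⟩
      · rw [mem_singleton] at hn
        omega
      · simp only [mem_singleton, Set.iUnion_iUnion_eq_left]
        exact large_partialBlocks h0 (hN₀ _ (le_max_right _ _))
    refine (ENNReal.ofReal_pos.2 (show (0 : ℝ) < 1 / 12000 by norm_num)).ne'
      (le_antisymm (hlow.trans (le_of_eq ?_)) zero_le)
    refine measure_mono_null (fun a ha => ?_) (measure_union_null hnull (ae_iff.1 ae_free))
    by_contra hcon
    simp only [Set.mem_union, Set.mem_ofPred_eq, not_or, not_not] at hcon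
    rw [hA, Set.mem_inter_iff, Set.mem_ofPred_eq, hiff] at hcon
    have hs : Summable (term ψ a) := not_not.1 fun h => hcon.1 ⟨hcon.2, h⟩
    rw [mem_limsup_iff_frequently_mem] at ha
    obtain ⟨N, hN, hbig⟩ := (ha.and_eventually ((tendsto_partialMean h0 hmono
      hdiv).eventually_gt_atTop (4 * ∑' q, term ψ a q))).exists
    rw [Set.mem_ofPred_eq] at hN
    linarith [partialBlocks_le h0 hmono hcon.2 hs N]
  rcases (AddCircle.ergodic_nsmul (T := (1 : ℝ)) one_lt_two).ae_empty_or_univ_of_ae_le_preimage
    hAm.nullMeasurableSet hinv.eventuallyLE with h | h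
  · exact absurd (ae_eq_empty.1 h) hpos
  · filter_upwards [eventuallyEq_univ.1 h] with a ha
    exact ⟨ha.1, (hiff a).1 ha.2⟩

end FA.MultiplicativeKhintchine
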